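/-
S44, block X, COVER, node RAT, ALTERNATIVE proof (second architect helper93; the official one is Rat/Main.lean of helper43).  The abstract core of the Hecke trick.

`F` a field with a valuation ring `G` of residue characteristic `p` (odd), `σ` an automorphism
preserving `G`, `T` a multiplicative operator commuting with `σ` and preserving the deep congruences,
`T U = U ^ a g ^ p`, `σ U = U ^ m h ^ p`, `r t ^ m = h σ(t)`, `σ(g) h ^ a = g ^ m T(h)`,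
`U t ^ p ≡ 1 mod p ^ 2`.  If `a ≢ ℓ + 1 mod p` (`T ζ = ζ ^ (ℓ + 1)`) then `r ≡ 1 mod p`.
-/
import Fermat.Agent.S44.X.Cover.Rat.Zeta

set_option autoImplicit false

namespace Fermat.Agent.S44.X.Cover.Rat

variable {F : Type*} [Field F]

theorem T_ne_zero (T : F →* F) {f : F} (hf : f ≠ 0) : T f ≠ 0 := by
  intro h0
  have h1 : T (f * f⁻¹) = 1 := by rw [mul_inv_cancel₀ hf, map_one]
  rw [map_mul, h0, zero_mul] at h1
  exact zero_ne_one h1

theorem T_div (T : F →* F) (f : F) {g : F} (hg : g ≠ 0) : T (f / g) = T f / T g := by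
  rw [eq_div_iff (T_ne_zero T hg), ← map_mul, div_mul_cancel₀ _ hg]

/-- the `p`-th power of the bracket is one -/
theorem bracket_pow (σ : F ≃+* F) (T : F →* F) (hσT : ∀ f, σ (T f) = T (σ f)) {p a m : ℕ}
    {U g h : F} (hU : U ≠ 0) (hTU : T U = U ^ a * g ^ p) (hσU : σ U = U ^ m * h ^ p) :
    (σ g * h ^ a) ^ p = (g ^ m * T h) ^ p := by
  have h1 : T (σ U) = σ U ^ a * σ g ^ p := by rw [← hσT, hTU, map_mul, map_pow, map_pow]
  rw [hσU, map_mul, map_pow, map_pow, hTU] at h1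
  have hUam : U ^ (a * m) ≠ 0 := pow_ne_zero _ hU
  apply mul_left_cancel₀ hUam
  calc U ^ (a * m) * (σ g * h ^ a) ^ p = (U ^ m * h ^ p) ^ a * σ g ^ p := by ring
    _ = (U ^ a * g ^ p) ^ m * T h ^ p := h1.symm
    _ = U ^ (a * m) * (g ^ m * T h) ^ p := by ring

section Identities

variable (σ : F ≃+* F) (T : F →* F) {p a m : ℕ} {U t g h r : F}

theorem x_pow (hU : U ≠ 0) (ht : t ≠ 0) (hTU : T U = U ^ a * g ^ p) :
    (g * T t / t ^ a) ^ p = T (U * t ^ p) / (U * t ^ p) ^ a := by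
  rw [map_mul, map_pow, hTU, div_pow, mul_pow, mul_pow, ← pow_mul, ← pow_mul,
    div_eq_div_iff (pow_ne_zero _ ht) (mul_ne_zero (pow_ne_zero _ hU) (pow_ne_zero _ ht))]
  ring

theorem r_pow (hU : U ≠ 0) (ht : t ≠ 0) (hσU : σ U = U ^ m * h ^ p) (hr : r * t ^ m = h * σ t) :
    r ^ p = σ (U * t ^ p) / (U * t ^ p) ^ m := by
  have hr' : r = h * σ t / t ^ m := by rw [eq_div_iff (pow_ne_zero _ ht), hr]
  rw [map_mul, map_pow, hσU, hr', div_pow, mul_pow, mul_pow, ← pow_mul, ← pow_mul,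
    div_eq_div_iff (pow_ne_zero _ ht) (mul_ne_zero (pow_ne_zero _ hU) (pow_ne_zero _ ht))]
  ring

theorem x_rel (hσT : ∀ f, σ (T f) = T (σ f)) (ht : t ≠ 0) (hh : h ≠ 0) (hr0 : r ≠ 0)
    (hr : r * t ^ m = h * σ t) (hB : σ g * h ^ a = g ^ m * T h) :
    σ (g * T t / t ^ a) * r ^ a = (g * T t / t ^ a) ^ m * T r := by
  have hσt : σ t = r * t ^ m / h := by rw [eq_div_iff hh, hr, mul_comm]
  have hTh : T h ≠ 0 := T_ne_zero T hh
  have hTσt : T (σ t) = T r * T t ^ m / T h := by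
    rw [hσt, T_div T _ hh, map_mul, map_pow]
  rw [map_div₀, map_mul, map_pow, hσT, hTσt, hσt]
  have h1 : σ g = g ^ m * T h / h ^ a := by rw [eq_div_iff (pow_ne_zero _ hh), hB]
  rw [h1, div_pow, div_pow, mul_pow, mul_pow, ← pow_mul, ← pow_mul]
  have e1 : t ^ (m * a) ≠ 0 := pow_ne_zero _ ht
  have e2 : t ^ (a * m) ≠ 0 := pow_ne_zero _ ht
  have e3 : h ^ a ≠ 0 := pow_ne_zero _ hh
  have e4 : r ^ a ≠ 0 := pow_ne_zero _ hr0
  field_simp
  ring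

end Identities

theorem rat_core (G : ValuationSubring F) {p ℓ : ℕ} (hp : p.Prime) (hp2 : p ≠ 2)
    (hpG : G.valuation (p : F) < 1) (hp0 : (p : F) ≠ 0) (σ : F ≃+* F)
    (hσG : ∀ f, σ f ∈ G ↔ f ∈ G) (T : F →* F) (hσT : ∀ f, σ (T f) = T (σ f))
    (hT : ∀ (n : ℕ) (f : F), Deep G p n f → Deep G p n (T f)) {ζ : F}
    (hζ : IsPrimitiveRoot ζ p) {m : ℕ} (hσζ : σ ζ = ζ ^ m) (hTζ : T ζ = ζ ^ (ℓ + 1)) {a : ℕ}
    (ha : (a : ZMod p) ≠ (ℓ : ZMod p) + 1) {U t g h r : F} (hU : U ≠ 0) (ht : t ≠ 0)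
    (hh : h ≠ 0) (hr0 : r ≠ 0) (hTU : T U = U ^ a * g ^ p) (hσU : σ U = U ^ m * h ^ p)
    (hr : r * t ^ m = h * σ t) (hB : σ g * h ^ a = g ^ m * T h)
    (hd : Deep G p 2 (U * t ^ p)) : Deep G p 1 r := by
  have hpm : (p : F) ∈ G := (G.valuation_le_one_iff _).1 hpG.le
  have hζ0 : ζ ≠ 0 := hζ.ne_zero hp.ne_zero
  -- the two roots
  have hx2 : Deep G p 2 ((g * T t / t ^ a) ^ p) := by
    rw [x_pow T hU ht hTU]
    exact Deep.div hp0 hpG two_pos (hT 2 _ hd) (Deep.pow hp0 hpm hd a)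
  have hr2 : Deep G p 2 (r ^ p) := by
    rw [r_pow σ hU ht hσU hr]
    exact Deep.div hp0 hpG two_pos (Deep.map σ hσG hd) (Deep.pow hp0 hpm hd m)
  obtain ⟨i, hxi⟩ := exists_deep_div_zeta hp hζ hx2
  obtain ⟨c, hrc⟩ := exists_deep_div_zeta hp hζ hr2
  set x : F := g * T t / t ^ a with hx
  set x₁ : F := x / ζ ^ i with hx₁
  set r₁ : F := r / ζ ^ c with hr₁
  have ex : x = ζ ^ i * x₁ := by rw [hx₁, mul_div_cancel₀ _ (pow_ne_zero _ hζ0)]
  have er : r = ζ ^ c * r₁ := by rw [hr₁, mul_div_cancel₀ _ (pow_ne_zero _ hζ0)]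
  have hx₁0 : x₁ ≠ 0 := Deep.ne_zero hp0 hpG one_pos hxi
  have hr₁0 : r₁ ≠ 0 := Deep.ne_zero hp0 hpG one_pos hrc
  have hrel := x_rel σ T hσT ht hh hr0 hr hB
  rw [← hx, ex, er, map_mul, map_pow, hσζ, map_mul, map_pow, hTζ] at hrel
  -- the quotient of the two roots of unity is deep
  have hTr₁ : T r₁ ≠ 0 := T_ne_zero T hr₁0
  have key : ζ ^ ((ℓ + 1) * c + c * a * (p - 1)) = σ x₁ * r₁ ^ a / (x₁ ^ m * T r₁) := by
    have h1 : ζ ^ (c * a * p) = 1 := by rw [mul_comm, pow_mul, hζ.pow_eq_one, one_pow]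
    have h2 : ζ ^ ((ℓ + 1) * c + c * a * (p - 1)) * ζ ^ (c * a) = ζ ^ ((ℓ + 1) * c) := by
      rw [← pow_add]
      have e : (ℓ + 1) * c + c * a * (p - 1) + c * a = (ℓ + 1) * c + c * a * p := by
        obtain ⟨k, rfl⟩ : ∃ k, p = k + 1 := ⟨p - 1, by have := hp.pos; omega⟩
        simp only [Nat.add_sub_cancel]
        ring
      rw [e, pow_add, h1, mul_one]
    rw [eq_div_iff (mul_ne_zero (pow_ne_zero _ hx₁0) hTr₁)]
    have hz : ζ ^ (c * a) * ζ ^ (i * m) ≠ 0 :=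
      mul_ne_zero (pow_ne_zero _ hζ0) (pow_ne_zero _ hζ0)
    apply mul_left_cancel₀ hz
    calc ζ ^ (c * a) * ζ ^ (i * m) * (ζ ^ ((ℓ + 1) * c + c * a * (p - 1)) * (x₁ ^ m * T r₁))
        = (ζ ^ ((ℓ + 1) * c + c * a * (p - 1)) * ζ ^ (c * a)) * ζ ^ (i * m) * (x₁ ^ m * T r₁) := by
          ring
      _ = (ζ ^ i * x₁) ^ m * ((ζ ^ (ℓ + 1)) ^ c * T r₁) := by rw [h2]; ring
      _ = (ζ ^ m) ^ i * σ x₁ * (ζ ^ c * r₁) ^ a := hrel.symm
      _ = ζ ^ (c * a) * ζ ^ (i * m) * (σ x₁ * r₁ ^ a) := by ring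
  have hdeep : Deep G p 1 (ζ ^ ((ℓ + 1) * c + c * a * (p - 1))) := by
    rw [key]
    exact Deep.div hp0 hpG one_pos
      (Deep.mul hp0 hpm (Deep.map σ hσG hxi) (Deep.pow hp0 hpm hrc a))
      (Deep.mul hp0 hpm (Deep.pow hp0 hpm hxi m) (hT 1 _ hrc))
  have hdvd := dvd_of_deep_zeta_pow hp hp2 hpG hζ hdeep
  -- `p ∣ c`
  have : Fact p.Prime := ⟨hp⟩
  have hc : p ∣ c := by
    rw [← ZMod.natCast_eq_zero_iff] at hdvd ⊢
    have h1 : ((p - 1 : ℕ) : ZMod p) = -1 := by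
      rw [Nat.cast_sub hp.pos, ZMod.natCast_self, Nat.cast_one, zero_sub]
    push_cast at hdvd
    rw [h1] at hdvd
    have h2 : (c : ZMod p) * ((ℓ : ZMod p) + 1 - a) = 0 := by
      rw [← hdvd]; ring
    rcases mul_eq_zero.1 h2 with h3 | h3
    · exact h3
    · exact absurd (sub_eq_zero.1 h3).symm ha
  obtain ⟨k, rfl⟩ := hc
  have h1 : ζ ^ (p * k) = 1 := by rw [pow_mul, hζ.pow_eq_one, one_pow]
  rw [er, h1, one_mul]
  exact hrc

end Fermat.Agent.S44.X.Cover.Rat
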