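/-
S44, block X, COVER, node RAT, ALTERNATIVE proof (second architect helper93; the official one is Rat/Main.lean of helper43).  **NodeRat** (Hecke trick).
-/
import Fermat.Agent.S44.X.Cover.Rat.Alt.Core
import Fermat.Agent.S44.X.Cover.Rat.Lead

set_option autoImplicit false

noncomputable section

namespace Fermat.Agent.S44.X.Cover.Rat

open ModularCurve AlgebraicCurve Fermat.Agent.S24 Fermat.Agent.S24.B Fermat.Agent.GAL
  Fermat.Agent.GAL.E Fermat.Agent.S44.X.Cover.Field

/-- the leading coefficient of the `q`-expansion -/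
abbrev lc {L : ℕ} (f : FN L) : Kbar := (f : LaurentSeries Kbar).leadingCoeff

theorem lc_mul {L : ℕ} (f g : FN L) : lc (f * g) = lc f * lc g :=
  HahnSeries.leadingCoeff_mul _ _

theorem lc_pow {L : ℕ} (f : FN L) (n : ℕ) : lc (f ^ n) = lc f ^ n :=
  leadingCoeff_pow _ n

theorem lc_galF {L : ℕ} (τ : S44.GQ) (f : FN L) : lc (galF L τ f) = τ (lc f) :=
  leadingCoeff_gS τ _

theorem coe_algebraMap_FN {L : ℕ} (c : Kbar) :
    ((algebraMap Kbar (FN L) c : FN L) : LaurentSeries Kbar) = cst c := rfl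

/-- two series with the same `p`-th power and the same leading coefficient are equal -/
theorem eq_of_pow_eq_of_lc_eq {n : ℕ} (hn : 0 < n) {X Y : LaurentSeries Kbar} (hY : Y ≠ 0)
    (h : X ^ n = Y ^ n) (hl : X.leadingCoeff = Y.leadingCoeff) : X = Y := by
  obtain ⟨c, -, hc⟩ := exists_cst_of_pow_eq hn hY h
  have h1 := congrArg HahnSeries.leadingCoeff hc
  rw [HahnSeries.leadingCoeff_mul, leadingCoeff_cst, hl] at h1
  have h2 : c = 1 := by
    have h3 := leadingCoeff_ne_zero' hY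
    exact (mul_right_cancel₀ h3 (by rw [one_mul]; exact h1)).symm
  rw [hc, h2, map_one, one_mul]

variable {I : Subgroup S44.GQ} {p L : ℕ} {U : FN L} {W : LaurentSeries Kbar}

theorem W_ne_zero (D : RootData I p L U W) : W ≠ 0 := by
  intro h0
  have := D.nrm
  rw [h0, HahnSeries.leadingCoeff_zero] at this
  exact zero_ne_one this

theorem U_ne_zero (D : RootData I p L U W) : U ≠ 0 := by
  rintro rfl
  exact pow_ne_zero p (W_ne_zero D) D.pow

theorem lc_U (D : RootData I p L U W) : lc U = 1 := by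
  show (U : LaurentSeries Kbar).leadingCoeff = 1
  rw [← D.pow, leadingCoeff_pow, D.nrm, one_pow]

/-- the action of `τ` on the normalised root -/
theorem exists_h (D : RootData I p L U W) (hp : 0 < p) {τ : S44.GQ} (hτ : τ ∈ I) {m : ℕ}
    (hm : ActsBy p τ m) :
    ∃ h : FN L, gS τ W = W ^ m * (h : LaurentSeries Kbar) ∧ lc h = 1 ∧
      galF L τ U = U ^ m * h ^ p := by
  obtain ⟨h₀, hh₀⟩ := D.gal τ hτ m hm
  have hW := W_ne_zero D
  have hU := U_ne_zero D
  have hh₀0 : h₀ ≠ 0 := by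
    rintro rfl
    rw [zero_pow hp.ne', mul_zero] at hh₀
    exact hU ((map_eq_zero_iff _ (galF L τ).injective).1 hh₀)
  have hh₀' : (h₀ : LaurentSeries Kbar) ≠ 0 := fun h => hh₀0 (Subtype.ext h)
  have e : (gS τ W) ^ p = (W ^ m * (h₀ : LaurentSeries Kbar)) ^ p := by
    rw [← map_pow, D.pow, ← coe_galF', hh₀]
    show (U : LaurentSeries Kbar) ^ m * (h₀ : LaurentSeries Kbar) ^ p = _
    rw [← D.pow]
    ring
  obtain ⟨c, hc, hcW⟩ := exists_cst_of_pow_eq hp (mul_ne_zero (pow_ne_zero m hW) hh₀') e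
  have e1 : gS τ W = W ^ m * ((algebraMap Kbar (FN L) c * h₀ : FN L) : LaurentSeries Kbar) := by
    rw [hcW]
    show cst c * (W ^ m * (h₀ : LaurentSeries Kbar)) = W ^ m * (cst c * (h₀ : LaurentSeries Kbar))
    ring
  refine ⟨algebraMap Kbar (FN L) c * h₀, e1, ?_, ?_⟩
  · have h1 := congrArg HahnSeries.leadingCoeff e1
    rw [leadingCoeff_gS, D.nrm, map_one, HahnSeries.leadingCoeff_mul, leadingCoeff_pow, D.nrm,
      one_pow, one_mul] at h1
    exact h1.symm
  · rw [hh₀, mul_pow, ← map_pow, hc, map_one, one_mul]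

theorem val_natCast_lt_one {A : ValuationSubring Kbar} {G : ValuationSubring (FN L)}
    (hG : GHyp A I L G) (hA : A.LiesOverPrime p) : G.valuation (p : FN L) < 1 := by
  have hpA : A.valuation (p : Kbar) < 1 := (ValuationSubring.mem_nonunits_iff A).1 hA
  by_contra hcon
  rw [not_lt] at hcon
  have h1 : ((p : FN L))⁻¹ ∈ G := by
    rw [← G.valuation_le_one_iff, map_inv₀]
    exact inv_le_one_of_one_le₀ hcon
  have h2 : algebraMap Kbar (FN L) ((p : Kbar)⁻¹) ∈ G := by rwa [map_inv₀, map_natCast]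
  have h3 := (hG.const _).1 h2
  rw [← A.valuation_le_one_iff, map_inv₀] at h3
  have h0 : A.valuation (p : Kbar) ≠ 0 := by
    intro h
    have h4 : (p : Kbar) = 0 := (Valuation.zero_iff _).1 h
    have h5 : (p : FN L) = 0 := by
      rw [← map_natCast (algebraMap Kbar (FN L)), h4, map_zero]
    rw [h5, map_zero] at hcon
    exact absurd hcon (not_le.2 zero_lt_one)
  exact absurd hpA (not_lt.2 ((inv_le_one₀ (zero_lt_iff.2 h0)).1 h3))

theorem nodeRat : NodeRat := by
  intro A I p L ℓ _ _ hp hp2 hA hℓ hℓ2 U W D G hG H hT a g hTU ha t hd τ hτ m hm r hr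
  have hpG := val_natCast_lt_one hG hA
  have hp0 : (p : FN L) ≠ 0 := Nat.cast_ne_zero.2 hp.ne_zero
  have hW := W_ne_zero D
  have hU := U_ne_zero D
  have hℓodd : Odd ℓ := hℓ.odd_of_ne_two hℓ2
  obtain ⟨h, hW', hlch, hσU⟩ := exists_h D hp.pos hτ hm
  have hh : h ≠ 0 := by
    rintro rfl
    exact zero_ne_one (HahnSeries.leadingCoeff_zero.symm.trans hlch)
  have ht : t ≠ 0 := by
    rintro rfl
    have h1 := Deep.ne_zero hp0 hpG two_pos hd
    rw [zero_pow hp.ne_zero, mul_zero] at h1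
    exact h1 rfl
  have ht' : (t : LaurentSeries Kbar) ≠ 0 := fun h0 => ht (Subtype.ext h0)
  -- `r t ^ m = h τ(t)`
  have hrel : r * t ^ m = h * galF L τ t := by
    apply Subtype.ext
    show (r : LaurentSeries Kbar) * (t : LaurentSeries Kbar) ^ m =
      (h : LaurentSeries Kbar) * gS τ (t : LaurentSeries Kbar)
    rw [map_mul, hW', mul_pow] at hr
    apply mul_left_cancel₀ (pow_ne_zero m hW)
    calc W ^ m * ((r : LaurentSeries Kbar) * (t : LaurentSeries Kbar) ^ m)
        = (r : LaurentSeries Kbar) * (W ^ m * (t : LaurentSeries Kbar) ^ m) := by ring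
      _ = W ^ m * (h : LaurentSeries Kbar) * gS τ (t : LaurentSeries Kbar) := hr.symm
      _ = _ := by ring
  have hr0 : r ≠ 0 := by
    rintro rfl
    rw [zero_mul] at hrel
    exact mul_ne_zero hh ((map_ne_zero_iff _ (galF L τ).injective).2 ht) hrel.symm
  -- the bracket
  have hg0 : g ≠ 0 := by
    rintro rfl
    rw [zero_pow hp.ne_zero, mul_zero] at hTU
    exact T_ne_zero H.T hU hTU
  have hlcg : lc g ^ p = 1 := by
    have h1 := congrArg lc hTU
    rw [lc_mul, lc_pow, lc_pow, lc_U D, one_pow, one_mul] at h1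
    rw [← h1]
    show ((H.T U : FN L) : LaurentSeries Kbar).leadingCoeff = 1
    rw [leadingCoeff_T hℓodd]
    show lc U ^ (ℓ + 1) = 1
    rw [lc_U D, one_pow]
  have hB : galF L τ g * h ^ a = g ^ m * H.T h := by
    apply Subtype.ext
    refine eq_of_pow_eq_of_lc_eq hp.pos (Y := ((g ^ m * H.T h : FN L) : LaurentSeries Kbar)) ?_ ?_ ?_
    · intro h0
      exact mul_ne_zero (pow_ne_zero m hg0) (T_ne_zero H.T hh) (Subtype.ext h0)
    · exact congrArg (Subtype.val)
        (bracket_pow (galF L τ) H.T (fun f => H.galF_T τ f) hU hTU hσU)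
    · show lc (galF L τ g * h ^ a) = lc (g ^ m * H.T h)
      rw [lc_mul, lc_mul, lc_pow, lc_pow, lc_galF, hlch, one_pow, mul_one, hm _ hlcg]
      have h2 : lc (H.T h) = 1 := by
        show ((H.T h : FN L) : LaurentSeries Kbar).leadingCoeff = 1
        rw [leadingCoeff_T hℓodd]
        show lc h ^ (ℓ + 1) = 1
        rw [hlch, one_pow]
      rw [h2, mul_one]
  -- a primitive root of unity
  have : NeZero p := ⟨hp.ne_zero⟩
  have : NeZero (p : Kbar) := ⟨Nat.cast_ne_zero.2 hp.ne_zero⟩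
  obtain ⟨ζ₀, hζ₀⟩ := HasEnoughRootsOfUnity.exists_primitiveRoot Kbar p
  have hζ : IsPrimitiveRoot (algebraMap Kbar (FN L) ζ₀) p :=
    hζ₀.map_of_injective (algebraMap Kbar (FN L)).injective
  exact rat_core G hp hp2 hpG hp0 (galF L τ) (hG.gal τ hτ) H.T (fun f => H.galF_T τ f) hT hζ
    (by rw [galF_algebraMap, hm _ hζ₀.pow_eq_one, map_pow])
    (by rw [H.T_algebraMap, map_pow]) ha hU ht hh hr0 hTU hσU hrel hB hd

end Fermat.Agent.S44.X.Cover.Rat

end
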